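-- Project H (statement S43, the Frey form of Ribet's level lowering at an odd prime q ≠ p).
-- TOP-LEVEL INTERFACE.  Two blocks, both in the vocabulary of the frozen statement (Frey packages,
-- `ModularRepOfLevel`, `GaloisRepUnramifiedAt`), and the sorry-free reduction `s43_of_blocks`.
--
--   * `MazurBlock` (B0): Mazur's principle at a squarefree level prime to p: a prime r ∣ N at which ρ̄ is
--     unramified can be removed from the level as soon as r ≢ 1 (mod p) or some element of a decomposition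
--     group above r acts on E[p] through a non-scalar.
--   * `IharaBlock` (B1 … B6 + patching): at a level N prime to p that is MINIMAL for ρ̄ (no proper divisor
--     of N is a level of ρ̄) there is no odd prime q ∣ N.  The block receives everything that S44, S05 and
--     `MazurBlock` give at the minimal level: at every odd r ∣ N the representation ρ̄ is unramified,
--     r ≡ 1 (mod p) and the decomposition groups above r act through scalars; and ρ̄ is ramified at 2 if
--     2 ∣ N.
--
-- The reduction: choose the least M ∣ N with `ModularRepOfLevel M` (S44 shows p ∤ M; `MazurBlock` + S05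
-- give the local hypotheses of `IharaBlock`), so q ∤ M.
import Fermat.Statements.S43
import Fermat.Agent.S05
import Fermat.Agent.S44

set_option autoImplicit false
open WeierstrassCurve WeierstrassCurve.Affine WeierstrassCurve.Affine.Point
open CuspForm ModularFormClass UpperHalfPlane
open FreyPackage

namespace Fermat.Agent.S43lib

/-- Every decomposition group above `r` acts on `E[p]` (the `p`-torsion of the Frey curve over `ℚ̄`)
through scalars.  When `ρ̄` is unramified at `r` this says that `ρ̄(Frob_r)` is a scalar. -/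
def DecompScalarAt (P : FreyPackage) (r : ℕ) : Prop :=
  ∀ A : ValuationSubring (AlgebraicClosure ℚ), A.LiesOverPrime r →
    ∀ σ ∈ A.decompositionSubgroup ℚ, ∃ c : ℤ,
      ∀ x : Submodule.torsionBy ℤ (P.freyCurve⁄(AlgebraicClosure ℚ)).Point P.p, σ • x = c • x

/-- `N` is a level of `ρ̄` and no proper divisor of `N` is. -/
def IsMinimalLevel (P : FreyPackage) (N : ℕ) : Prop :=
  P.ModularRepOfLevel N ∧ ∀ M : ℕ, M ∣ N → M ≠ N → ¬ P.ModularRepOfLevel M

/-- **Block B0 (Mazur's principle), Frey form.**  `r = 2` is allowed; `r ≠ p` is automatic. -/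
def MazurBlock : Prop :=
  ∀ (P : FreyPackage) (N r : ℕ), P.IsConductorLevel N → ¬ P.p ∣ N → r.Prime → r ∣ N →
    GaloisRepIsIrreducible (K := AlgebraicClosure ℚ) ℚ P.freyCurve P.p →
    P.ModularRepOfLevel N → P.GaloisRepUnramifiedAt r →
    (¬ r ≡ 1 [MOD P.p] ∨ ¬ DecompScalarAt P r) → P.ModularRepOfLevel (N / r)

/-- **Block IHARA (Taylor's Ihara avoidance at the minimal level), Frey form.** -/
def IharaBlock : Prop :=
  ∀ (P : FreyPackage) (N q : ℕ), P.IsConductorLevel N → ¬ P.p ∣ N → q.Prime → q ≠ 2 → q ∣ N →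
    GaloisRepIsIrreducible (K := AlgebraicClosure ℚ) ℚ P.freyCurve P.p →
    IsMinimalLevel P N →
    (∀ r : ℕ, r.Prime → r ≠ 2 → r ∣ N →
      P.GaloisRepUnramifiedAt r ∧ r ≡ 1 [MOD P.p] ∧ DecompScalarAt P r) →
    (2 ∣ N → ¬ P.GaloisRepUnramifiedAt 2) → False

/-- The least level of `ρ̄` dividing `N` is a minimal level. -/
theorem exists_minimalLevel (P : FreyPackage) {N : ℕ} (hN : 0 < N)
    (hmod : P.ModularRepOfLevel N) : ∃ M : ℕ, M ∣ N ∧ IsMinimalLevel P M := by
  classical
  have hex : ∃ M : ℕ, M ∣ N ∧ P.ModularRepOfLevel M := ⟨N, dvd_rfl, hmod⟩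
  refine ⟨Nat.find hex, (Nat.find_spec hex).1, (Nat.find_spec hex).2, ?_⟩
  intro M hM hne hMmod
  have hle : Nat.find hex ≤ M := Nat.find_min' hex ⟨hM.trans (Nat.find_spec hex).1, hMmod⟩
  have hpos : 0 < Nat.find hex := Nat.pos_of_dvd_of_pos (Nat.find_spec hex).1 hN
  exact hne (le_antisymm (Nat.le_of_dvd hpos hM) hle)

/-- **The reduction of S43 to the two blocks.** -/
theorem s43_of_blocks (hMaz : MazurBlock) (hIha : IharaBlock)
    (P : FreyPackage) {N q : ℕ} (hcond : P.IsConductorLevel N) (hq : q.Prime) (hq2 : q ≠ 2)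
    (_hqp : q ≠ P.p) (_hqN : q ∣ N)
    (hirr : GaloisRepIsIrreducible (K := AlgebraicClosure ℚ) ℚ P.freyCurve P.p)
    (hmod : P.ModularRepOfLevel N) (_hunr : P.GaloisRepUnramifiedAt q) :
    ∃ M : ℕ, M ∣ N ∧ ¬ q ∣ M ∧ P.ModularRepOfLevel M := by
  obtain ⟨M, hMN, hmin⟩ := exists_minimalLevel P hcond.pos hmod
  have hMpos : 0 < M := Nat.pos_of_dvd_of_pos hMN hcond.pos
  have hcondM : P.IsConductorLevel M := hcond.of_dvd hMN hMpos
  -- `p ∤ M` by S44 and minimality
  have hpM : ¬ P.p ∣ M := by
    intro hpM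
    obtain ⟨M', hM'M, hpM', hmodM'⟩ := Fermat.Agent.S44.result P hcondM hpM hirr hmin.1
    exact hmin.2 M' hM'M (fun h => hpM' (h ▸ hpM)) hmodM'
  refine ⟨M, hMN, ?_, hmin.1⟩
  intro hqM
  -- the consequences of Mazur's principle at the minimal level
  have hmaz : ∀ r : ℕ, r.Prime → r ∣ M → P.GaloisRepUnramifiedAt r →
      r ≡ 1 [MOD P.p] ∧ DecompScalarAt P r := by
    intro r hr hrM hru
    by_contra hcon
    have hdisj : ¬ r ≡ 1 [MOD P.p] ∨ ¬ DecompScalarAt P r := by
      by_cases h1 : r ≡ 1 [MOD P.p]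
      · exact Or.inr (fun h2 => hcon ⟨h1, h2⟩)
      · exact Or.inl h1
    have hlow := hMaz P M r hcondM hpM hr hrM hirr hmin.1 hru hdisj
    refine hmin.2 (M / r) (Nat.div_dvd_of_dvd hrM) ?_ hlow
    exact (Nat.div_lt_self hMpos hr.one_lt).ne
  refine hIha P M q hcondM hpM hq hq2 hqM hirr hmin ?_ ?_
  · intro r hr hr2 hrM
    have hrp : r ≠ P.p := fun h => hpM (h ▸ hrM)
    have hru : P.GaloisRepUnramifiedAt r := Fermat.Agent.S05.result P hr hr2 hrp
    exact ⟨hru, hmaz r hr hrM hru⟩
  · intro h2M h2u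
    have h21 : 2 ≡ 1 [MOD P.p] := (hmaz 2 Nat.prime_two h2M h2u).1
    have hp5 : 5 ≤ P.p := P.hp5
    have : P.p ∣ 1 := by
      have := (Nat.modEq_iff_dvd' (by norm_num : 1 ≤ 2)).mp h21.symm
      simpa using this
    have := Nat.le_of_dvd one_pos this
    omega

end Fermat.Agent.S43lib
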