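-- Project H (S43), LAYER 2 of the interface: the cut of `IharaBlock`.
--
--   `IharaBlock`  ⇐  `LevelSystemBlock`  +  `IA.IABlock` (helper1)  +  the patching theorem (proved,
--   `Patch/Main.lean`)        [wiring: `Patch/Wire.lean`, theorem `iharaBlock_of_blocks`]
--
-- A `LevelSystem P N q` packages what the modular side (B1 Hecke modules, B2 Galois representations,
-- B3 generators, LGC, BIGIMG, bridges, END) delivers at a minimal level `N` with an odd prime `q ∣ N`:
--   * a coefficient ring `𝒪` (complete DVR, uniformiser `ϖ`, 2 invertible), a base ring `Λ`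
--     (in practice `𝒪[G_T]`, `G_T = ∏_{r ∈ T} (ℤ/r)ˣ / p`) with two augmentations `χA, χB : Λ → 𝒪`
--     (`χA` = the auxiliary character, nontrivial on every factor; `χB` = the trivial character),
--     congruent modulo `ϖ`;
--   * the finite set `T` of odd primes of `N` (with `q₀ : T` the index of `q`), helper1's local data
--     `D : T → LocalDatum 𝒪 ϖ`, numbers `h, m, d` with `3 |T| + h ≤ m`;
--   * for every `n` a patching level over `Λ`, with `P̃ = Λ⟦Var T h⟧` (helper1's variables: the raw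
--     matrix entries of `ρ(Frob_r) − φ₀`, `ρ(σ_r) − 1` for `r ∈ T`, and `h` free variables), base
--     algebra `T0` and base module `M0`;
--   * the type relations: `relsA` kill `M_n / (ker χA) M_n`, `relsB` kill `M_n / (ker χB) M_n`;
--   * the monodromy entries at `q` map to fixed elements `τ i j` of `T0` at every level;
--   * READOUT: a prime of `T0` above `ker χB`, not containing `ϖ`, containing all `τ i j`, gives
--     `P.ModularRepOfLevel (N / q)`.
import Fermat.Agent.S43lib.Iface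
import Fermat.Agent.S43lib.Patch.Defs
import Fermat.Agent.S43lib.Patch.Spec
import Fermat.Agent.S43lib.IA.BlockDefs

set_option autoImplicit false
open WeierstrassCurve WeierstrassCurve.Affine WeierstrassCurve.Affine.Point
open FreyPackage

namespace Fermat.Agent.S43lib

open IsLocalRing MvPowerSeries

/-- The data delivered by the modular side at a minimal level. -/
structure LevelSystem (P : FreyPackage) (N q : ℕ) : Type 1 where
  /-- the coefficient ring -/
  𝒪 : Type
  [instCommRing𝒪 : CommRing 𝒪]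
  [instIsDomain𝒪 : IsDomain 𝒪]
  [instIsLocalRing𝒪 : IsLocalRing 𝒪]
  [instIsNoetherianRing𝒪 : IsNoetherianRing 𝒪]
  [instIsAdicComplete𝒪 : IsAdicComplete (maximalIdeal 𝒪) 𝒪]
  ϖ : 𝒪
  ϖ_ne_zero : ϖ ≠ 0
  maximalIdeal_eq : maximalIdeal 𝒪 = Ideal.span {ϖ}
  isUnit_two : IsUnit (2 : 𝒪)
  /-- the base ring of the patching (in practice `𝒪[G_T]`) -/
  Λ : Type
  [instCommRingΛ : CommRing Λ]
  [instIsLocalRingΛ : IsLocalRing Λ]
  [instIsNoetherianRingΛ : IsNoetherianRing Λ]
  [instIsAdicCompleteΛ : IsAdicComplete (maximalIdeal Λ) Λ]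
  [instFiniteResidueFieldΛ : Finite (ResidueField Λ)]
  [instAlgebraΛ : Algebra 𝒪 Λ]
  /-- the auxiliary character and the trivial character -/
  χA : Λ →ₐ[𝒪] 𝒪
  χB : Λ →ₐ[𝒪] 𝒪
  ker_sup : RingHom.ker (χA : Λ →+* 𝒪) ⊔ Ideal.span {algebraMap 𝒪 Λ ϖ} =
    RingHom.ker (χB : Λ →+* 𝒪) ⊔ Ideal.span {algebraMap 𝒪 Λ ϖ}
  /-- the odd primes of the level -/
  T : Type
  [instFintypeT : Fintype T]
  [instDecidableEqT : DecidableEq T]
  q₀ : T
  h : ℕ
  m : ℕ
  d : ℕ
  hm : 3 * Fintype.card T + h ≤ m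
  hd : 0 < d
  D : T → IA.LocalDatum 𝒪 ϖ
  /-- the base level -/
  T0 : Type
  [instCommRingT0 : CommRing T0]
  [instAlgebraT0 : Algebra Λ T0]
  [instFiniteT0 : Module.Finite Λ T0]
  M0 : Type
  [instAddCommGroupM0 : AddCommGroup M0]
  [instModuleΛM0 : Module Λ M0]
  [instModuleT0M0 : Module T0 M0]
  [instIsScalarTowerM0 : IsScalarTower Λ T0 M0]
  [instFiniteM0 : Module.Finite Λ M0]
  /-- the patching levels -/
  L : ∀ n : ℕ, Patch.PatchLevel Λ m d (MvPowerSeries (IA.Var T h) Λ) T0 M0 n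
  /-- type `(χ, χ⁻¹)` after specialisation along `χA` -/
  killA : ∀ (n : ℕ) (r : T), ∀ t ∈ IA.relsA (h := h) D r, ∀ x : (L n).M,
    Patch.liftPS Λ (IA.Var T h) t • x ∈
      (Patch.kerExt χA (IA.Var T h) • ⊤ : Submodule (MvPowerSeries (IA.Var T h) Λ) (L n).M)
  /-- unipotent type after specialisation along `χB` -/
  killB : ∀ (n : ℕ) (r : T), ∀ t ∈ IA.relsB (h := h) D r, ∀ x : (L n).M,
    Patch.liftPS Λ (IA.Var T h) t • x ∈
      (Patch.kerExt χB (IA.Var T h) • ⊤ : Submodule (MvPowerSeries (IA.Var T h) Λ) (L n).M)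
  /-- the monodromy at `q` on the base level -/
  τ : Fin 2 → Fin 2 → T0
  e_mono : ∀ (n : ℕ) (i j : Fin 2),
    (L n).e (X (Sum.inl (q₀, true, i, j)) : MvPowerSeries (IA.Var T h) Λ) = τ i j
  /-- READOUT -/
  readout : ∀ 𝔭 : Ideal T0, 𝔭.IsPrime →
    (RingHom.ker (χB : Λ →+* 𝒪)).map (algebraMap Λ T0) ≤ 𝔭 →
    algebraMap Λ T0 (algebraMap 𝒪 Λ ϖ) ∉ 𝔭 → (∀ i j, τ i j ∈ 𝔭) →
    P.ModularRepOfLevel (N / q)

attribute [instance] LevelSystem.instCommRing𝒪 LevelSystem.instIsDomain𝒪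
  LevelSystem.instIsLocalRing𝒪 LevelSystem.instIsNoetherianRing𝒪 LevelSystem.instIsAdicComplete𝒪
  LevelSystem.instCommRingΛ LevelSystem.instIsLocalRingΛ LevelSystem.instIsNoetherianRingΛ
  LevelSystem.instIsAdicCompleteΛ LevelSystem.instFiniteResidueFieldΛ LevelSystem.instAlgebraΛ
  LevelSystem.instFintypeT LevelSystem.instDecidableEqT LevelSystem.instCommRingT0
  LevelSystem.instAlgebraT0 LevelSystem.instFiniteT0 LevelSystem.instAddCommGroupM0
  LevelSystem.instModuleΛM0 LevelSystem.instModuleT0M0 LevelSystem.instIsScalarTowerM0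
  LevelSystem.instFiniteM0

/-- **Block LEVELSYSTEM**: under the hypotheses of `IharaBlock` there is a level system. -/
def LevelSystemBlock : Prop :=
  ∀ (P : FreyPackage) (N q : ℕ), P.IsConductorLevel N → ¬ P.p ∣ N → q.Prime → q ≠ 2 → q ∣ N →
    GaloisRepIsIrreducible (K := AlgebraicClosure ℚ) ℚ P.freyCurve P.p →
    IsMinimalLevel P N →
    (∀ r : ℕ, r.Prime → r ≠ 2 → r ∣ N →
      P.GaloisRepUnramifiedAt r ∧ r ≡ 1 [MOD P.p] ∧ DecompScalarAt P r) →
    (2 ∣ N → ¬ P.GaloisRepUnramifiedAt 2) → Nonempty (LevelSystem P N q)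

end Fermat.Agent.S43lib
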